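import Mathlib.Analysis.Real.OfDigits
import Mathlib.Probability.ProductMeasure
import Mathlib.Topology.MetricSpace.HausdorffDimension

/-!
# Billingsley's lemma for digit expansions

A set of digit sequences on which a product weight is eventually at least `b ^ (-s n)` gives
a set of reals of finite `s`-dimensional measure; one of positive product measure on which it
is eventually at most `b ^ (-s n)` gives a set of positive `s`-dimensional measure.
-/

set_option autoImplicit false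

noncomputable section

open Finset Filter Topology MeasureTheory Measure Metric
open scoped ENNReal NNReal

namespace FA.DigitFrequency

variable {b : ℕ}

/-- The product weight of the first `n` digits. -/
def wordWeight (q : Fin b → ℝ) (ω : ℕ → Fin b) (n : ℕ) : ℝ := ∏ i ∈ range n, q (ω i)

/-- The length of the intervals of rank `n`. -/
def cellLength (b n : ℕ) : ℝ := ((b : ℝ) ^ n)⁻¹

/-- The integer with the first `n` digits of `ω`. -/
def prefixValue (ω : ℕ → Fin b) : ℕ → ℕ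
  | 0 => 0
  | n + 1 => b * prefixValue ω n + (ω n : ℕ)

/-- The measure on one digit with the weights `p`. -/
def digitLaw (p : Fin b → ℝ) : Measure (Fin b) := ∑ j, ENNReal.ofReal (p j) • Measure.dirac j

/-- The product measure on digit sequences with the weights `p`. -/
def sequenceLaw (p : Fin b → ℝ) : Measure (ℕ → Fin b) :=
  Measure.infinitePi fun _ => digitLaw p

theorem digitLaw_singleton (p : Fin b → ℝ) (j : Fin b) :
    digitLaw p {j} = ENNReal.ofReal (p j) := by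
  rw [digitLaw, Measure.finsetSum_apply, Finset.sum_eq_single j] <;> simp +contextual

theorem isProbabilityMeasure_digitLaw {p : Fin b → ℝ} (hp0 : ∀ j, 0 ≤ p j)
    (hp1 : ∑ j, p j = 1) : IsProbabilityMeasure (digitLaw p) :=
  ⟨by rw [digitLaw, Measure.finsetSum_apply]
      simp [← ENNReal.ofReal_sum_of_nonneg fun j _ => hp0 j, hp1]⟩

theorem cellLength_pos (hb : 2 ≤ b) (n : ℕ) : 0 < cellLength b n := by
  have : (0 : ℝ) < b := by exact_mod_cast (by omega : 0 < b)
  exact inv_pos.2 (pow_pos this n)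

theorem tendsto_cellLength (hb : 2 ≤ b) : Tendsto (cellLength b) atTop (𝓝 0) :=
  (tendsto_pow_atTop_atTop_of_one_lt
    (by exact_mod_cast (by omega : 1 < b) : (1 : ℝ) < b)).inv_tendsto_atTop

theorem cellLength_succ (hb : 2 ≤ b) (n : ℕ) : cellLength b n = b * cellLength b (n + 1) := by
  have : (b : ℝ) ≠ 0 := by exact_mod_cast (by omega : b ≠ 0)
  rw [cellLength, cellLength, pow_succ]
  field_simp

theorem sum_term_eq (ω : ℕ → Fin b) : ∀ n,
    ∑ i ∈ range n, Real.ofDigitsTerm ω i = prefixValue ω n * cellLength b n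
  | 0 => by simp [prefixValue]
  | n + 1 => by
    have : (b : ℝ) ≠ 0 := Nat.cast_ne_zero.2 (Fin.pos (ω 0)).ne'
    rw [sum_range_succ, sum_term_eq ω n, prefixValue, Real.ofDigitsTerm]
    simp only [cellLength, Nat.cast_add, Nat.cast_mul, pow_succ]
    field_simp

theorem prefixValue_le_ofDigits (ω : ℕ → Fin b) (n : ℕ) :
    prefixValue ω n * cellLength b n ≤ Real.ofDigits ω ∧
      Real.ofDigits ω ≤ (prefixValue ω n + 1) * cellLength b n := by
  rw [Real.ofDigits_eq_sum_add_ofDigits ω n, sum_term_eq, cellLength]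
  have h0 : (0 : ℝ) ≤ ((b : ℝ) ^ n)⁻¹ := by positivity
  have h1 := mul_le_mul_of_nonneg_left (Real.ofDigits_le_one fun i => ω (i + n)) h0
  have h2 := mul_nonneg h0 (Real.ofDigits_nonneg fun i => ω (i + n))
  constructor <;> linarith

theorem eq_of_prefixValue_eq {ω ω' : ℕ → Fin b} :
    ∀ {n}, prefixValue ω n = prefixValue ω' n → ∀ i < n, ω i = ω' i
  | 0, _, i, hi => absurd hi (Nat.not_lt_zero i)
  | n + 1, h, i, hi => by
    simp only [prefixValue] at h
    have h1 := congrArg (· % b) h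
    simp only [Nat.mul_add_mod, Nat.mod_eq_of_lt (ω n).isLt, Nat.mod_eq_of_lt (ω' n).isLt] at h1
    rcases Nat.lt_succ_iff_lt_or_eq.1 hi with hi | rfl
    · refine eq_of_prefixValue_eq (Nat.eq_of_mul_eq_mul_left (Fin.pos (ω 0)) ?_) i hi
      omega
    · exact Fin.ext h1

theorem sequenceLaw_cylinder {p : Fin b → ℝ} (hp0 : ∀ j, 0 ≤ p j) (hp1 : ∑ j, p j = 1)
    (ω : ℕ → Fin b) (n : ℕ) :
    sequenceLaw p {η | ∀ i < n, η i = ω i} = ENNReal.ofReal (wordWeight p ω n) := by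
  have := isProbabilityMeasure_digitLaw hp0 hp1
  have hset : {η : ℕ → Fin b | ∀ i < n, η i = ω i} =
      Set.pi (↑(range n)) (fun i => {ω i}) := by
    ext η
    simp [Set.mem_pi]
  rw [hset, sequenceLaw, Measure.infinitePi_pi _ fun i _ => MeasurableSet.singleton (ω i),
    wordWeight, ENNReal.ofReal_prod_of_nonneg fun i _ => hp0 _]
  exact prod_congr rfl fun i _ => digitLaw_singleton p (ω i)

/-- If the weight is at least `b ^ (-s n)` from some rank on, the measure is at most `1`. -/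
theorem hausdorffMeasure_image_le_one (hb : 2 ≤ b) {q : Fin b → ℝ} (hq0 : ∀ j, 0 ≤ q j)
    (hq1 : ∑ j, q j ≤ 1) {s : ℝ} (hs : 0 < s) {A : Set (ℕ → Fin b)} {N : ℕ}
    (hA : ∀ ω ∈ A, ∀ n, N ≤ n → cellLength b n ^ s ≤ wordWeight q ω n) :
    μH[s] (Real.ofDigits '' A) ≤ 1 := by
  set t : (n : ℕ) → (Fin n → Fin b) → Set ℝ := fun n w =>
    Real.ofDigits '' {ω | ω ∈ A ∧ ∀ i : Fin n, ω i = w i}
  have hdiam : ∀ n w, ediam (t n w) ≤ ENNReal.ofReal (cellLength b n) := by
    intro n w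
    refine Metric.ediam_le ?_
    rintro _ ⟨x, hx, rfl⟩ _ ⟨y, hy, rfl⟩
    rw [edist_dist, Real.dist_eq]
    exact ENNReal.ofReal_le_ofReal (Real.abs_ofDigits_sub_ofDigits_le fun i hi =>
      (hx.2 ⟨i, hi⟩).trans (hy.2 ⟨i, hi⟩).symm)
  have hr : Tendsto (fun n => ENNReal.ofReal (cellLength b n)) atTop (𝓝 0) := by
    simpa using ENNReal.tendsto_ofReal (tendsto_cellLength hb)
  refine (hausdorffMeasure_le_liminf_sum s _ _ hr t (Eventually.of_forall hdiam)
    (Eventually.of_forall fun n x hx => ?_)).trans ?_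
  · obtain ⟨ω, hω, rfl⟩ := hx
    exact Set.mem_iUnion.2 ⟨fun i => ω i, ω, ⟨hω, fun i => rfl⟩, rfl⟩
  refine liminf_le_of_frequently_le' (Eventually.frequently ?_)
  filter_upwards [eventually_ge_atTop N] with n hn
  refine (sum_le_sum fun w _ => (?_ :
    ediam (t n w) ^ s ≤ ENNReal.ofReal (∏ i, q (w i)))).trans ?_
  · rcases Set.eq_empty_or_nonempty (t n w) with h0 | ⟨x, ω, ⟨hω, hw⟩, -⟩
    · simp [h0, hs]
    · refine (ENNReal.rpow_le_rpow (hdiam n w) hs.le).trans ?_
      rw [ENNReal.ofReal_rpow_of_nonneg (cellLength_pos hb n).le hs.le]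
      refine ENNReal.ofReal_le_ofReal ((hA ω hω n hn).trans_eq ?_)
      rw [wordWeight, ← Fin.prod_univ_eq_prod_range (fun i => q (ω i)) n]
      simp only [hw]
  · rw [← ENNReal.ofReal_sum_of_nonneg fun w _ => prod_nonneg fun i _ => hq0 _,
      ← Fintype.prod_sum fun (_ : Fin n) j => q j, prod_const, card_univ, Fintype.card_fin]
    exact ENNReal.ofReal_le_one.2 (pow_le_one₀ (sum_nonneg fun j _ => hq0 j) hq1)

/-- **Billingsley's lemma, upper bound.** -/
theorem dimH_image_le (hb : 2 ≤ b) {q : Fin b → ℝ} (hq0 : ∀ j, 0 ≤ q j) (hq1 : ∑ j, q j ≤ 1)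
    {s : ℝ} (hs : 0 < s) {Ω : Set (ℕ → Fin b)}
    (h : ∀ ω ∈ Ω, ∀ᶠ n in atTop, cellLength b n ^ s ≤ wordWeight q ω n) :
    dimH (Real.ofDigits '' Ω) ≤ ENNReal.ofReal s := by
  set A : ℕ → Set (ℕ → Fin b) := fun N =>
    {ω | ω ∈ Ω ∧ ∀ n, N ≤ n → cellLength b n ^ s ≤ wordWeight q ω n}
  have hsub : Real.ofDigits '' Ω ⊆ ⋃ N, Real.ofDigits '' A N := by
    rintro _ ⟨ω, hω, rfl⟩
    obtain ⟨N, hN⟩ := eventually_atTop.1 (h ω hω)
    exact Set.mem_iUnion.2 ⟨N, ω, ⟨hω, hN⟩, rfl⟩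
  refine (dimH_mono hsub).trans ((dimH_iUnion _).trans_le (iSup_le fun N => ?_))
  exact dimH_le_of_hausdorffMeasure_ne_top (d := s.toNNReal)
    (by
      rw [Real.coe_toNNReal s hs.le]
      exact ne_top_of_le_ne_top ENNReal.one_ne_top
        (hausdorffMeasure_image_le_one hb hq0 hq1 hs (N := N) fun ω hω => hω.2))

theorem preimage_le (hb : 2 ≤ b) {α : Type*} {mα : MeasurableSpace α} (μ : Measure α)
    (g : α → ℕ → Fin b) {s : ℝ} (hs : 0 < s) {A : Set α} {N : ℕ}
    (hA : ∀ a ∈ A, ∀ n, N ≤ n →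
      μ {a' | ∀ i < n, g a' i = g a i} ≤ ENNReal.ofReal (cellLength b n ^ s))
    {t : Set ℝ} {δ : ℝ} (hδ0 : 0 < δ) (hδ : δ < cellLength b N)
    (ht : ∀ x ∈ t, ∀ y ∈ t, |x - y| ≤ δ) :
    μ (A ∩ (fun a => Real.ofDigits (g a)) ⁻¹' t) ≤
      ENNReal.ofReal (3 * (b : ℝ) ^ s * δ ^ s) := by
  have hanti : Antitone (cellLength b) := fun m n hmn => by
    have : (1 : ℝ) ≤ b := by exact_mod_cast (by omega : 1 ≤ b)
    exact inv_anti₀ (by positivity) (pow_le_pow_right₀ this hmn)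
  have hex : ∃ m, cellLength b m ≤ δ :=
    ((tendsto_cellLength hb).eventually (eventually_le_nhds hδ0)).exists
  have hNm : N < Nat.find hex := by
    by_contra hle
    exact absurd (Nat.find_spec hex) (not_le.2 (hδ.trans_le (hanti (not_lt.1 hle))))
  obtain ⟨n, hn⟩ : ∃ n, Nat.find hex = n + 1 := ⟨Nat.find hex - 1, by omega⟩
  have hδ1 : cellLength b (n + 1) ≤ δ := hn ▸ Nat.find_spec hex
  have hδ2 : δ < cellLength b n := not_le.1 (Nat.find_min hex (by omega))
  rcases Set.eq_empty_or_nonempty (A ∩ (fun a => Real.ofDigits (g a)) ⁻¹' t) with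
    h0 | ⟨a₀, -, hω₀⟩
  · simp [h0]
  set ω₀ := g a₀
  set piece : ℕ → Set α := fun d =>
    {a | a ∈ A ∧ prefixValue (g a) n + 1 = prefixValue ω₀ n + d}
  have hcov : A ∩ (fun a => Real.ofDigits (g a)) ⁻¹' t ⊆ ⋃ d ∈ range 3, piece d := by
    rintro a ⟨hω, hωt⟩
    set ω := g a
    obtain ⟨h1, h2⟩ := prefixValue_le_ofDigits ω n
    obtain ⟨h3, h4⟩ := prefixValue_le_ofDigits ω₀ n
    have hd := abs_le.1 (ht _ hωt _ hω₀)
    have hc := cellLength_pos hb n
    have e1 : ((prefixValue ω n : ℕ) : ℝ) < ((prefixValue ω₀ n + 2 : ℕ) : ℝ) := by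
      refine lt_of_mul_lt_mul_right ?_ hc.le
      push_cast
      linarith
    have e2 : ((prefixValue ω₀ n : ℕ) : ℝ) < ((prefixValue ω n + 2 : ℕ) : ℝ) := by
      refine lt_of_mul_lt_mul_right ?_ hc.le
      push_cast
      linarith
    rw [Nat.cast_lt] at e1 e2
    exact Set.mem_iUnion₂.2 ⟨prefixValue ω n + 1 - prefixValue ω₀ n,
      mem_range.2 (by omega), hω, show prefixValue ω n + 1 = _ by omega⟩
  refine ((measure_mono hcov).trans (measure_biUnion_finset_le _ _)).trans ?_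
  refine (sum_le_card_nsmul _ _ (ENNReal.ofReal ((b : ℝ) ^ s * δ ^ s)) fun d _ => ?_).trans ?_
  · rcases Set.eq_empty_or_nonempty (piece d) with h | ⟨ω₁, hω₁, he₁⟩
    · simp [h]
    · refine (measure_mono (fun ω hω => ?_ :
        piece d ⊆ {a' | ∀ i < n, g a' i = g ω₁ i})).trans ?_
      · exact eq_of_prefixValue_eq (Nat.add_right_cancel (hω.2.trans he₁.symm))
      refine (hA ω₁ hω₁ n (by omega)).trans (ENNReal.ofReal_le_ofReal ?_)
      rw [← Real.mul_rpow (Nat.cast_nonneg b) hδ0.le]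
      refine Real.rpow_le_rpow (cellLength_pos hb n).le ?_ hs.le
      rw [cellLength_succ hb n]
      exact mul_le_mul_of_nonneg_left hδ1 (Nat.cast_nonneg b)
  · rw [card_range, nsmul_eq_mul, ← ENNReal.ofReal_natCast, ← ENNReal.ofReal_mul (by norm_num)]
    exact ENNReal.ofReal_le_ofReal (by push_cast; rw [mul_assoc])

/-- The mass distribution principle for digit expansions. -/
theorem hausdorffMeasure_ne_zero_of_cylinder (hb : 2 ≤ b) {α : Type*} {mα : MeasurableSpace α}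
    (μ : Measure α) (g : α → ℕ → Fin b) {s : ℝ} (hs : 0 < s) {A : Set α} {N : ℕ}
    (hμA : μ A ≠ 0) (hA : ∀ a ∈ A, ∀ n, N ≤ n →
      μ {a' | ∀ i < n, g a' i = g a i} ≤ ENNReal.ofReal (cellLength b n ^ s))
    {T : Set ℝ} (hT : ∀ a ∈ A, Real.ofDigits (g a) ∈ T) :
    μH[s] T ≠ 0 := by
  set C : ℝ := 3 * (b : ℝ) ^ s
  have hC : 0 < C := by
    have : (0 : ℝ) < b := by exact_mod_cast (by omega : 0 < b)
    positivity
  suffices hle : μ A / ENNReal.ofReal C ≤ μH[s] T by
    intro h0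
    rw [h0, nonpos_iff_eq_zero, ENNReal.div_eq_zero_iff] at hle
    exact hle.elim hμA ENNReal.ofReal_ne_top
  rw [hausdorffMeasure_apply]
  refine le_iSup₂_of_le (ENNReal.ofReal (cellLength b N / 2))
    (ENNReal.ofReal_pos.2 (half_pos (cellLength_pos hb N)))
    (le_iInf fun t => le_iInf fun hcov => le_iInf fun ht => ENNReal.div_le_of_le_mul' ?_)
  have hsub : A ⊆ ⋃ i, A ∩ (fun a => Real.ofDigits (g a)) ⁻¹' (t i) := fun ω hω => by
    obtain ⟨i, hi⟩ := Set.mem_iUnion.1 (hcov (hT ω hω))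
    exact Set.mem_iUnion.2 ⟨i, hω, hi⟩
  refine ((measure_mono hsub).trans (measure_iUnion_le _)).trans ?_
  rw [← ENNReal.tsum_mul_left]
  refine ENNReal.tsum_le_tsum fun i => ?_
  rcases (t i).eq_empty_or_nonempty with h0 | hne
  · simp [h0]
  have htop : ediam (t i) ≠ ∞ := ne_top_of_le_ne_top ENNReal.ofReal_ne_top (ht i)
  set d : ℝ := (ediam (t i)).toReal with hd
  have hd0 : 0 ≤ d := ENNReal.toReal_nonneg
  have hdle : d ≤ cellLength b N / 2 :=
    ENNReal.toReal_le_of_le_ofReal (half_pos (cellLength_pos hb N)).le (ht i)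
  have hdist : ∀ x ∈ t i, ∀ y ∈ t i, |x - y| ≤ d := fun x hx y hy => by
    rw [← Real.dist_eq, dist_edist]
    exact ENNReal.toReal_mono htop (edist_le_ediam_of_mem hx hy)
  calc μ (A ∩ (fun a => Real.ofDigits (g a)) ⁻¹' t i) ≤ ENNReal.ofReal (C * d ^ s) := by
        have hlim : Tendsto (fun δ => ENNReal.ofReal (C * δ ^ s)) (𝓝[>] d)
            (𝓝 (ENNReal.ofReal (C * d ^ s))) :=
          ENNReal.tendsto_ofReal (((Real.continuousAt_rpow_const d s
            (Or.inr hs.le)).tendsto.mono_left nhdsWithin_le_nhds).const_mul C)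
        refine ge_of_tendsto hlim ?_
        filter_upwards [self_mem_nhdsWithin, mem_nhdsWithin_of_mem_nhds
          (eventually_lt_nhds (show d < cellLength b N by linarith [cellLength_pos hb N]))]
          with δ hδ hδN
        exact preimage_le hb μ g hs hA
          (hd0.trans_lt hδ) hδN fun x hx y hy => (hdist x hx y hy).trans (le_of_lt hδ)
    _ = ENNReal.ofReal C * ediam (t i) ^ s := by
        rw [ENNReal.ofReal_mul hC.le, ← ENNReal.ofReal_rpow_of_nonneg hd0 hs.le, hd,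
          ENNReal.ofReal_toReal htop]
    _ ≤ _ := by
        gcongr
        exact le_iSup_of_le hne le_rfl

/-- **Billingsley's lemma, lower bound.** -/
theorem hausdorffMeasure_image_ne_zero (hb : 2 ≤ b) {p : Fin b → ℝ} (hp0 : ∀ j, 0 ≤ p j)
    (hp1 : ∑ j, p j = 1) {s : ℝ} (hs : 0 < s) {Ω : Set (ℕ → Fin b)}
    (hΩ : sequenceLaw p Ω ≠ 0)
    (h : ∀ ω ∈ Ω, ∀ᶠ n in atTop, wordWeight p ω n ≤ cellLength b n ^ s) :
    μH[s] (Real.ofDigits '' Ω) ≠ 0 := by
  set A : ℕ → Set (ℕ → Fin b) := fun N =>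
    {ω | ω ∈ Ω ∧ ∀ n, N ≤ n → wordWeight p ω n ≤ cellLength b n ^ s}
  obtain ⟨N, hN⟩ : ∃ N, sequenceLaw p (A N) ≠ 0 := by
    by_contra! hall
    refine hΩ (measure_mono_null (fun ω hω => ?_) (measure_iUnion_null hall))
    obtain ⟨N, hN⟩ := eventually_atTop.1 (h ω hω)
    exact Set.mem_iUnion.2 ⟨N, hω, hN⟩
  refine hausdorffMeasure_ne_zero_of_cylinder hb (sequenceLaw p) id hs hN
    (N := N) (fun ω hω n hn => ?_) fun ω hω => ⟨ω, hω.1, rfl⟩
  exact (sequenceLaw_cylinder hp0 hp1 ω n).trans_le (ENNReal.ofReal_le_ofReal (hω.2 n hn))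

end FA.DigitFrequency
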