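import Mathlib.Probability.Independence.InfinitePi
import Mathlib.Probability.StrongLaw
import Mathlib.Analysis.SpecialFunctions.Log.NegMulLog
import Fermat.Agent.DigitFrequency.Billingsley

/-!
# Digit frequencies

Almost every sequence for the product law `p` has the digit frequencies `p`, and along such a
sequence `log (q (ω 0) ⋯ q (ω (n-1))) / n` tends to `∑ p j log q j`.
-/

set_option autoImplicit false

noncomputable section

open Finset Filter Topology MeasureTheory ProbabilityTheory
open scoped ENNReal NNReal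

namespace FA.DigitFrequency

variable {b : ℕ}

/-- The number of digits `j` among the first `n` digits of `ω`. -/
def digitCount (ω : ℕ → Fin b) (j : Fin b) (n : ℕ) : ℕ :=
  ((range n).filter fun i => ω i = j).card

/-- The digit sequences with frequencies `p`. -/
def freqSet (p : Fin b → ℝ) : Set (ℕ → Fin b) :=
  {ω | ∀ j, Tendsto (fun n : ℕ => (digitCount ω j n : ℝ) / n) atTop (𝓝 (p j))}

/-- The entropy of a weight vector, in natural units. -/
def entropy (p : Fin b → ℝ) : ℝ := ∑ j, Real.negMulLog (p j)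

theorem entropy_eq (p : Fin b → ℝ) : entropy p = -∑ j, p j * Real.log (p j) := by
  rw [entropy, ← sum_neg_distrib]
  exact sum_congr rfl fun j _ => by rw [Real.negMulLog, neg_mul]

theorem le_one_of_sum_eq_one {p : Fin b → ℝ} (hp0 : ∀ j, 0 ≤ p j) (hp1 : ∑ j, p j = 1)
    (j : Fin b) : p j ≤ 1 :=
  hp1 ▸ single_le_sum (fun i _ => hp0 i) (mem_univ j)

theorem entropy_nonneg {p : Fin b → ℝ} (hp0 : ∀ j, 0 ≤ p j) (hp1 : ∑ j, p j = 1) :
    0 ≤ entropy p :=
  sum_nonneg fun j _ => Real.negMulLog_nonneg (hp0 j) (le_one_of_sum_eq_one hp0 hp1 j)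

theorem ae_mem_freqSet {p : Fin b → ℝ} (hp0 : ∀ j, 0 ≤ p j) (hp1 : ∑ j, p j = 1) :
    ∀ᵐ ω ∂sequenceLaw p, ω ∈ freqSet p := by
  have := isProbabilityMeasure_digitLaw hp0 hp1
  have : IsProbabilityMeasure (sequenceLaw p) := by unfold sequenceLaw; infer_instance
  refine ae_all_iff.2 fun j => ?_
  set f : Fin b → ℝ := fun k => if k = j then 1 else 0
  have hf : Measurable f := measurable_of_finite _
  have heval : ∀ i : ℕ, MeasurePreserving (Function.eval i) (sequenceLaw p) (digitLaw p) :=
    fun i => measurePreserving_eval_infinitePi (fun _ => digitLaw p) i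
  set X : ℕ → (ℕ → Fin b) → ℝ := fun i ω => f (ω i)
  have hX : ∀ i, Measurable (X i) := fun i => hf.comp (measurable_pi_apply i)
  have hindep : iIndepFun X (sequenceLaw p) := iIndepFun_infinitePi fun _ => hf
  have hint : Integrable (X 0) (sequenceLaw p) :=
    Integrable.of_bound (hX 0).aestronglyMeasurable 1 (Eventually.of_forall fun ω => by
      simp only [X, f]
      split_ifs <;> norm_num)
  have hident : ∀ i, IdentDistrib (X i) (X 0) (sequenceLaw p) (sequenceLaw p) := fun i =>
    (⟨(heval i).measurable.aemeasurable, (heval 0).measurable.aemeasurable,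
      (heval i).map_eq.trans (heval 0).map_eq.symm⟩ :
      IdentDistrib (Function.eval i) (Function.eval 0) (sequenceLaw p) (sequenceLaw p)).comp hf
  have hmean : ∫ ω, X 0 ω ∂sequenceLaw p = p j := by
    have h := integral_map (heval 0).measurable.aemeasurable
      (hf.aestronglyMeasurable (μ := (sequenceLaw p).map (Function.eval 0)))
    rw [(heval 0).map_eq] at h
    refine h.symm.trans ?_
    rw [integral_fintype Integrable.of_finite, sum_eq_single j]
    · simp [f, measureReal_def, digitLaw_singleton, hp0 j]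
    · intro k _ hk
      simp [f, hk]
    · simp
  have h := strong_law_ae_real X hint (fun i k hik => hindep.indepFun hik) hident
  rw [hmean] at h
  refine h.mono fun ω hω => hω.congr fun n => ?_
  rw [digitCount, sum_boole]

theorem ae_weight_pos {p : Fin b → ℝ} (hp0 : ∀ j, 0 ≤ p j) (hp1 : ∑ j, p j = 1) :
    ∀ᵐ ω ∂sequenceLaw p, ∀ i, 0 < p (ω i) := by
  have := isProbabilityMeasure_digitLaw hp0 hp1
  refine ae_all_iff.2 fun i => ?_
  have h : ∀ᵐ k ∂digitLaw p, 0 < p k := by
    rw [ae_iff_of_countable]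
    intro k hk
    rw [digitLaw_singleton, ne_eq, ENNReal.ofReal_eq_zero, not_le] at hk
    exact hk
  exact (measurePreserving_eval_infinitePi (fun _ => digitLaw p) i).quasiMeasurePreserving.ae h

/-- A sequence of positive product measure exists in every almost sure set. -/
theorem sequenceLaw_ne_zero {p : Fin b → ℝ} (hp0 : ∀ j, 0 ≤ p j) (hp1 : ∑ j, p j = 1)
    {Ω : Set (ℕ → Fin b)} (h : ∀ᵐ ω ∂sequenceLaw p, ω ∈ Ω) : sequenceLaw p Ω ≠ 0 := by
  have := isProbabilityMeasure_digitLaw hp0 hp1
  have : IsProbabilityMeasure (sequenceLaw p) := by unfold sequenceLaw; infer_instance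
  intro h0
  have : ∀ᵐ ω ∂sequenceLaw p, ω ∉ Ω := measure_eq_zero_iff_ae_notMem.1 h0
  obtain ⟨ω, h1, h2⟩ := (h.and this).exists
  exact h2 h1

theorem wordWeight_pos {q : Fin b → ℝ} {ω : ℕ → Fin b} (hq : ∀ i, 0 < q (ω i)) (n : ℕ) :
    0 < wordWeight q ω n := prod_pos fun i _ => hq i

theorem tendsto_log_wordWeight {p q : Fin b → ℝ} {ω : ℕ → Fin b} (hω : ω ∈ freqSet p)
    (hq : ∀ i, 0 < q (ω i)) :
    Tendsto (fun n : ℕ => Real.log (wordWeight q ω n) / n) atTop
      (𝓝 (∑ j, p j * Real.log (q j))) := by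
  refine (tendsto_finsetSum univ fun j _ =>
    (hω j).mul_const (Real.log (q j))).congr fun n => ?_
  rw [wordWeight, Real.log_prod fun i _ => (hq i).ne',
    ← sum_fiberwise' (range n) ω fun j => Real.log (q j), sum_div]
  refine sum_congr rfl fun j _ => ?_
  rw [sum_const, nsmul_eq_mul, digitCount]
  ring

theorem eventually_wordWeight_le (hb : 2 ≤ b) {p : Fin b → ℝ} {s : ℝ} {ω : ℕ → Fin b}
    (hω : ω ∈ freqSet p) (hpos : ∀ i, 0 < p (ω i)) (hs : s * Real.log b < entropy p) :
    ∀ᶠ n in atTop, wordWeight p ω n ≤ cellLength b n ^ s := by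
  have hlt : ∑ j, p j * Real.log (p j) < -(s * Real.log b) := by
    rw [entropy_eq] at hs
    linarith
  filter_upwards [(tendsto_log_wordWeight hω hpos).eventually (eventually_lt_nhds hlt),
    eventually_gt_atTop 0] with n hn hn0
  refine (Real.log_le_log_iff (wordWeight_pos hpos n)
    (Real.rpow_pos_of_pos (cellLength_pos hb n) s)).1 ?_
  rw [Real.log_rpow (cellLength_pos hb n), cellLength, Real.log_inv, Real.log_pow]
  rw [div_lt_iff₀ (by exact_mod_cast hn0)] at hn
  linarith

theorem eventually_le_wordWeight (hb : 2 ≤ b) {p q : Fin b → ℝ} {s : ℝ} {ω : ℕ → Fin b}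
    (hω : ω ∈ freqSet p) (hq : ∀ j, 0 < q j)
    (hs : -∑ j, p j * Real.log (q j) < s * Real.log b) :
    ∀ᶠ n in atTop, cellLength b n ^ s ≤ wordWeight q ω n := by
  have hlt : -(s * Real.log b) < ∑ j, p j * Real.log (q j) := by linarith
  filter_upwards [(tendsto_log_wordWeight hω fun i => hq (ω i)).eventually
    (eventually_gt_nhds hlt), eventually_gt_atTop 0] with n hn hn0
  refine (Real.log_le_log_iff (Real.rpow_pos_of_pos (cellLength_pos hb n) s)
    (wordWeight_pos (fun i => hq (ω i)) n)).1 ?_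
  rw [Real.log_rpow (cellLength_pos hb n), cellLength, Real.log_inv, Real.log_pow]
  rw [lt_div_iff₀ (by exact_mod_cast hn0)] at hn
  linarith

theorem exists_mixture {p : Fin b → ℝ} (hb : 2 ≤ b) (hp0 : ∀ j, 0 ≤ p j) (hp1 : ∑ j, p j = 1)
    {H : ℝ} (hH : entropy p < H) :
    ∃ q : Fin b → ℝ, (∀ j, 0 < q j) ∧ ∑ j, q j = 1 ∧ -∑ j, p j * Real.log (q j) < H := by
  set η : ℝ := 1 - Real.exp (-((H - entropy p) / 2))
  have hexp : Real.exp (-((H - entropy p) / 2)) < 1 := Real.exp_lt_one_iff.2 (by linarith)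
  have hη0 : 0 < η := sub_pos.2 hexp
  have hη1 : 1 - η = Real.exp (-((H - entropy p) / 2)) := sub_sub_cancel _ _
  have hb0 : (0 : ℝ) < b := by exact_mod_cast (by omega : 0 < b)
  have hexp0 := Real.exp_pos (-((H - entropy p) / 2))
  refine ⟨fun j => (1 - η) * p j + η / b, fun j => ?_, ?_, ?_⟩
  · exact add_pos_of_nonneg_of_pos (mul_nonneg (hη1 ▸ hexp0.le) (hp0 j)) (div_pos hη0 hb0)
  · rw [sum_add_distrib, ← mul_sum, hp1, sum_const, card_univ, Fintype.card_fin, nsmul_eq_mul]
    field_simp
    ring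
  · have hterm : ∀ j, p j * Real.log ((1 - η) * p j) ≤
        p j * Real.log ((1 - η) * p j + η / b) := fun j => by
      rcases (hp0 j).eq_or_lt with h | h
      · simp [← h]
      · refine mul_le_mul_of_nonneg_left (Real.log_le_log ?_ ?_) h.le
        · exact mul_pos (hη1 ▸ hexp0) h
        · linarith [div_pos hη0 hb0]
    have hsum : ∑ j, p j * Real.log ((1 - η) * p j) =
        -((H - entropy p) / 2) - entropy p := by
      rw [entropy_eq, sub_neg_eq_add]
      rw [show -((H - -∑ j, p j * Real.log (p j)) / 2) =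
        ∑ j, p j * (-((H - entropy p) / 2)) by rw [← sum_mul, hp1, one_mul, entropy_eq],
        ← sum_add_distrib]
      refine sum_congr rfl fun j _ => ?_
      rcases (hp0 j).eq_or_lt with h | h
      · simp [← h]
      · rw [Real.log_mul (hη1 ▸ hexp0.ne') h.ne', hη1, Real.log_exp]
        ring
    have := sum_le_sum fun j (_ : j ∈ univ) => hterm j
    rw [hsum] at this
    linarith

end FA.DigitFrequency
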