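import Mathlib.Topology.Instances.CantorSet
import Fermat.Agent.DigitFrequency.Frequency

/-!
# The dimension of sets given by digit frequencies
-/

set_option autoImplicit false

noncomputable section

open Finset Filter Topology MeasureTheory Measure
open scoped ENNReal NNReal

namespace FA.DigitFrequency

variable {b : ℕ}

theorem ofDigits_lt_one (hb : 2 ≤ b) {ω : ℕ → Fin b} {i : ℕ} (hi : (ω i : ℕ) + 1 < b) :
    Real.ofDigits ω < 1 := by
  have hb1 : 1 < b := by omega
  have hb0 : (0 : ℝ) < b := by exact_mod_cast (by omega : 0 < b)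
  rw [← Real.ofDigits_const_last_eq_one' hb1]
  have hterm : ∀ m, Real.ofDigitsTerm (fun _ => (⟨b - 1, Nat.sub_one_lt_of_lt hb1⟩ : Fin b)) m =
      ((b : ℝ) - 1) * ((b : ℝ) ^ (m + 1))⁻¹ := fun m => by
    simp [Real.ofDigitsTerm, Nat.cast_sub (by omega : 1 ≤ b)]
  refine Summable.tsum_lt_tsum (i := i) (fun m => ?_) ?_ Real.summable_ofDigitsTerm
    Real.summable_ofDigitsTerm
  · rw [hterm]
    exact Real.ofDigitsTerm_le
  · rw [hterm, Real.ofDigitsTerm]
    refine mul_lt_mul_of_pos_right ?_ (inv_pos.2 (pow_pos hb0 _))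
    have : ((ω i : ℕ) : ℝ) + 1 < b := by exact_mod_cast hi
    linarith

/-- A sequence that is not eventually `b - 1` is the digit sequence of its value. -/
theorem digits_ofDigits [NeZero b] (hb : 2 ≤ b) {ω : ℕ → Fin b}
    (hω : ∀ n, ∃ i, n ≤ i ∧ (ω i : ℕ) + 1 < b) : Real.digits (Real.ofDigits ω) b = ω := by
  have hfloor : ∀ n, ⌊Real.ofDigits ω * (b : ℝ) ^ n⌋₊ = prefixValue ω n := by
    intro n
    obtain ⟨i, hi, hib⟩ := hω n
    have hb0 : (b : ℝ) ^ n ≠ 0 := pow_ne_zero _ (Nat.cast_ne_zero.2 (NeZero.ne b))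
    rw [Real.ofDigits_eq_sum_add_ofDigits ω n, sum_term_eq, add_mul, cellLength,
      mul_assoc, inv_mul_cancel₀ hb0, mul_one, mul_comm _ ((b : ℝ) ^ n),
      mul_inv_cancel_left₀ hb0]
    rw [Nat.floor_eq_iff (add_nonneg (Nat.cast_nonneg _) (Real.ofDigits_nonneg _))]
    exact ⟨le_add_of_nonneg_right (Real.ofDigits_nonneg _), (add_lt_add_iff_left _).2
      (ofDigits_lt_one hb (ω := fun m => ω (m + n)) (i := i - n)
        (by rwa [Nat.sub_add_cancel hi]))⟩
  funext n
  rw [Real.digits, hfloor (n + 1)]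
  refine Fin.ext ?_
  rw [Fin.val_ofNat, prefixValue, Nat.mul_add_mod, Nat.mod_eq_of_lt (ω n).isLt]

theorem not_eventually_last (hb : 2 ≤ b) {p : Fin b → ℝ}
    (hp1 : ∑ j, p j = 1) (hH : 0 < entropy p) {ω : ℕ → Fin b} (hω : ω ∈ freqSet p) (n : ℕ) :
    ∃ i, n ≤ i ∧ (ω i : ℕ) + 1 < b := by
  set l : Fin b := ⟨b - 1, by omega⟩
  by_contra! hlast
  have heq : ∀ i, n ≤ i → ω i = l := fun i hi => Fin.ext (by
    have := (ω i).isLt
    have := hlast i hi
    simp only [l]
    omega)
  have hzero : ∀ j, j ≠ l → p j = 0 := fun j hj => by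
    refine tendsto_nhds_unique (hω j) (squeeze_zero (fun m => by positivity) (fun m => ?_)
      (tendsto_const_div_atTop_nhds_zero_nat (n : ℝ)))
    refine div_le_div_of_nonneg_right (Nat.cast_le.2 ?_) (Nat.cast_nonneg m)
    refine (card_le_card fun i hi => ?_).trans (card_range n).le
    rw [mem_filter] at hi
    exact mem_range.2 (not_le.1 fun hni => hj (hi.2 ▸ heq i hni))
  have hl : p l = 1 := by
    rw [← hp1]
    exact (sum_eq_single l (fun j _ hj => hzero j hj) (by simp)).symm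
  refine hH.ne' (sum_eq_zero fun j _ => ?_)
  rcases eq_or_ne j l with rfl | hj
  · rw [hl, Real.negMulLog_one]
  · rw [hzero j hj, Real.negMulLog_zero]

/-- The reals of `[0, 1)` with the digit frequencies `p` in base `b`. -/
def freqReals [NeZero b] (p : Fin b → ℝ) : Set ℝ :=
  {x | x ∈ Set.Ico (0 : ℝ) 1 ∧ Real.digits x b ∈ freqSet p}

theorem dimH_freqReals_le [NeZero b] (hb : 2 ≤ b) {p : Fin b → ℝ} (hp0 : ∀ j, 0 ≤ p j)
    (hp1 : ∑ j, p j = 1) :
    dimH (freqReals p) ≤ ENNReal.ofReal (entropy p / Real.log b) := by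
  have hlog : 0 < Real.log b := Real.log_pos (by exact_mod_cast (by omega : 1 < b))
  refine le_of_forall_gt_imp_ge_of_dense fun c hc => ?_
  rcases eq_or_ne c ∞ with rfl | hctop
  · exact le_top
  set s : ℝ := c.toReal
  have hc' : c = ENNReal.ofReal s := (ENNReal.ofReal_toReal hctop).symm
  rw [hc'] at hc ⊢
  obtain ⟨hs, hs0⟩ := ENNReal.ofReal_lt_ofReal_iff'.1 hc
  rw [div_lt_iff₀ hlog] at hs
  obtain ⟨q, hq0, hq1, hq⟩ := exists_mixture hb hp0 hp1 hs
  refine (dimH_mono fun x hx => (?_ : x ∈ Real.ofDigits '' freqSet p)).trans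
    (dimH_image_le hb (fun j => (hq0 j).le) hq1.le hs0 fun ω hω =>
      eventually_le_wordWeight hb hω hq0 hq)
  exact ⟨Real.digits x b, hx.2, Real.ofDigits_digits (by omega) hx.1⟩

theorem le_dimH_freqReals [NeZero b] (hb : 2 ≤ b) {p : Fin b → ℝ} (hp0 : ∀ j, 0 ≤ p j)
    (hp1 : ∑ j, p j = 1) :
    ENNReal.ofReal (entropy p / Real.log b) ≤ dimH (freqReals p) := by
  have hlog : 0 < Real.log b := Real.log_pos (by exact_mod_cast (by omega : 1 < b))
  refine le_of_forall_lt_imp_le_of_dense fun c hc => ?_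
  lift c to ℝ≥0 using hc.ne_top
  rcases eq_or_ne c 0 with rfl | hc0
  · exact zero_le
  have hc1 : (0 : ℝ) < c := NNReal.coe_pos.2 (pos_iff_ne_zero.2 hc0)
  rw [← ENNReal.ofReal_coe_nnreal, ENNReal.ofReal_lt_ofReal_iff', lt_div_iff₀ hlog] at hc
  have hH : 0 < entropy p := (mul_pos hc1 hlog).trans hc.1
  set Ω : Set (ℕ → Fin b) := {ω | ω ∈ freqSet p ∧ ∀ i, 0 < p (ω i)}
  have hsub : Real.ofDigits '' Ω ⊆ freqReals p := by
    rintro _ ⟨ω, ⟨hω, -⟩, rfl⟩
    have hlast := not_eventually_last hb hp1 hH hω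
    refine ⟨⟨Real.ofDigits_nonneg ω, ?_⟩, by rwa [digits_ofDigits hb hlast]⟩
    obtain ⟨i, -, hi⟩ := hlast 0
    exact ofDigits_lt_one hb hi
  refine le_trans ?_ (dimH_mono hsub)
  refine le_dimH_of_hausdorffMeasure_ne_zero (hausdorffMeasure_image_ne_zero hb hp0 hp1 hc1 ?_
    fun ω hω => eventually_wordWeight_le hb hω.1 hω.2 hc.1)
  exact sequenceLaw_ne_zero hp0 hp1 ((ae_mem_freqSet hp0 hp1).and (ae_weight_pos hp0 hp1))

/-- The weights of the middle-thirds Cantor set. -/
def cantorWeights : Fin 3 → ℝ := fun j => if j = 1 then 0 else 1 / 2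

/-- The dimension of the middle-thirds Cantor set. -/
def cantorDim : ℝ := Real.log 2 / Real.log 3

theorem cantorDim_pos : 0 < cantorDim :=
  div_pos (Real.log_pos one_lt_two) (Real.log_pos (by norm_num))

theorem cantorWeights_nonneg (j : Fin 3) : 0 ≤ cantorWeights j := by
  rw [cantorWeights]
  split_ifs <;> norm_num

theorem sum_cantorWeights : ∑ j, cantorWeights j = 1 := by
  simp only [Fin.sum_univ_three, cantorWeights, Fin.reduceEq, if_true, if_false]
  norm_num

theorem wordWeight_cantor {ω : ℕ → Fin 3} (hω : ∀ i, ω i ≠ 1) (n : ℕ) :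
    wordWeight cantorWeights ω n = cellLength 3 n ^ cantorDim := by
  have h : (3 : ℝ) ^ cantorDim = 2 := by
    rw [Real.rpow_def_of_pos (by norm_num), cantorDim,
      mul_div_cancel₀ _ (Real.log_pos (by norm_num : (1 : ℝ) < 3)).ne',
      Real.exp_log two_pos]
  have hv : ∀ i, cantorWeights (ω i) = 1 / 2 := fun i => if_neg (hω i)
  rw [wordWeight, prod_congr rfl fun i _ => hv i,
    prod_const, card_range, cellLength, Nat.cast_ofNat, Real.inv_rpow (by positivity),
    ← Real.rpow_natCast, ← Real.rpow_natCast (3 : ℝ), ← Real.rpow_mul (by norm_num),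
    mul_comm, Real.rpow_mul (by norm_num), h, one_div, Real.inv_rpow (by norm_num)]

theorem ae_ne_one : ∀ᵐ ω ∂sequenceLaw cantorWeights, ∀ i, ω i ≠ 1 := by
  filter_upwards [ae_weight_pos cantorWeights_nonneg sum_cantorWeights] with ω hω i hi
  have := hω i
  simp [cantorWeights, hi] at this

theorem hausdorffMeasure_cantorSet_ne_zero : μH[cantorDim] cantorSet ≠ 0 := by
  rw [cantorSet_eq_zero_two_ofDigits]
  have h := hausdorffMeasure_image_ne_zero (b := 3) (by norm_num) cantorWeights_nonneg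
    sum_cantorWeights cantorDim_pos
    (Ω := {ω : ℕ → Fin 3 | ∀ i, ω i ≠ 1})
    (sequenceLaw_ne_zero cantorWeights_nonneg sum_cantorWeights ae_ne_one)
    fun ω hω => Eventually.of_forall fun n => (wordWeight_cantor hω n).le
  exact h

theorem hausdorffMeasure_cantorSet_le_one : μH[cantorDim] cantorSet ≤ 1 := by
  rw [cantorSet_eq_zero_two_ofDigits]
  exact hausdorffMeasure_image_le_one (b := 3) (by norm_num) cantorWeights_nonneg
    sum_cantorWeights.le cantorDim_pos (A := {ω : ℕ → Fin 3 | ∀ i, ω i ≠ 1}) (N := 0)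
    fun ω hω n _ => (wordWeight_cantor hω n).ge

theorem dimH_cantorSet_eq : dimH cantorSet = ENNReal.ofReal cantorDim := by
  refine le_antisymm ?_ ?_
  · rw [cantorSet_eq_zero_two_ofDigits]
    exact dimH_image_le (b := 3) (by norm_num) cantorWeights_nonneg sum_cantorWeights.le
      cantorDim_pos (Ω := {ω : ℕ → Fin 3 | ∀ i, ω i ≠ 1})
      fun ω hω => Eventually.of_forall fun n => (wordWeight_cantor hω n).ge
  · exact le_dimH_of_hausdorffMeasure_ne_zero (d := cantorDim.toNNReal)
      (by rw [Real.coe_toNNReal _ cantorDim_pos.le]; exact hausdorffMeasure_cantorSet_ne_zero)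

theorem tendsto_entropy_tilt [NeZero b] :
    Tendsto (fun η : ℝ => entropy fun j : Fin b => (1 - η) / b + if j = 0 then η else 0)
      (𝓝[>] 0) (𝓝 (Real.log b)) := by
  have hcont : Continuous fun η : ℝ =>
      entropy fun j : Fin b => (1 - η) / b + if j = 0 then η else 0 := by
    simp only [entropy]
    refine continuous_finsetSum _ fun j _ => Real.continuous_negMulLog.comp ?_
    split_ifs <;> fun_prop
  refine ((hcont.tendsto 0).mono_left nhdsWithin_le_nhds).trans_eq ?_
  congr 1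
  simp only [entropy, sub_zero, ite_self, add_zero, sum_const, card_univ, Fintype.card_fin,
    Real.negMulLog, nsmul_eq_mul, one_div, Real.log_inv]
  have : (b : ℝ) ≠ 0 := Nat.cast_ne_zero.2 (NeZero.ne b)
  field_simp

/-- The reals that are not simply normal in base `b` have full dimension. -/
theorem dimH_not_simplyNormal [NeZero b] (hb : 2 ≤ b) :
    dimH {x : ℝ | x ∈ Set.Ico (0 : ℝ) 1 ∧ Real.digits x b ∉ freqSet fun _ => 1 / (b : ℝ)} =
      1 := by
  refine le_antisymm ((dimH_mono (Set.subset_univ _)).trans_eq Real.dimH_univ) ?_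
  have hlog : 0 < Real.log b := Real.log_pos (by exact_mod_cast (by omega : 1 < b))
  have hlim := ENNReal.tendsto_ofReal ((tendsto_entropy_tilt (b := b)).div_const (Real.log b))
  rw [div_self hlog.ne', ENNReal.ofReal_one] at hlim
  refine le_of_tendsto hlim ?_
  filter_upwards [self_mem_nhdsWithin, mem_nhdsWithin_of_mem_nhds
    (eventually_lt_nhds (zero_lt_one' ℝ))] with η hη hη1
  have hη0 : (0 : ℝ) < η := hη
  have hb0 : (0 : ℝ) < b := by exact_mod_cast (by omega : 0 < b)
  set p : Fin b → ℝ := fun j => (1 - η) / b + if j = 0 then η else 0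
  have hp0 : ∀ j, 0 ≤ p j := fun j => by
    simp only [p]
    split_ifs <;> linarith [div_nonneg (sub_nonneg.2 hη1.le) hb0.le]
  have hp1 : ∑ j, p j = 1 := by
    simp only [p, sum_add_distrib, sum_const, card_univ, Fintype.card_fin, nsmul_eq_mul,
      sum_ite_eq', mem_univ, if_true]
    field_simp
    ring
  refine (le_dimH_freqReals hb hp0 hp1).trans (dimH_mono fun x hx => ⟨hx.1, fun hn => ?_⟩)
  have h := tendsto_nhds_unique (hx.2 0) (hn 0)
  simp only [p, if_true] at h
  field_simp at h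
  have h2 : (2 : ℝ) ≤ b := by exact_mod_cast hb
  nlinarith

end FA.DigitFrequency
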